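/-
S33, route of record (`moonshots` row 61, helper8), top-level plumbing (helper24):
**the restriction map between Hecke algebras of levels `M ∣ N`, the old ideal `𝔞` and `π′`.**

* `levelIncl hMN : S₂(Γ₀(M)) → S₂(Γ₀(N))` (the same function on `ℍ`), injective, and it intertwines
  the `T_ℓ`, `ℓ ∤ N` (both are `heckeT 2 ℓ` on the underlying function).
* `res hMN hNS : heckeAlgebra N 2 S →+* heckeAlgebra M 2 S` (all primes of `N` in `S`, so the only
  generators are the `T_ℓ`): `res_spec`, `res_T`, `res_surjective`.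
* for any ring hom `π : heckeAlgebra N 2 S →+* T`: `oldIdeal π = 𝔞 := π(ker res)·T` and
  `piOld π : heckeAlgebra M 2 S →+* T ⧸ 𝔞` with `piOld π (res t) = mk (π t)`.
-/
import Mathlib
import Fermat.Prelude.Def_CuspForm_HeckeAlgebra

set_option autoImplicit false
set_option linter.unusedSectionVars false
set_option linter.style.longLine false

namespace Fermat.Agent.S33.Top.Res

open CuspForm CongruenceSubgroup

/-! ### The inclusion of cusp forms of lower level -/

section Incl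

variable {N M : ℕ}

theorem Gamma0_le (hMN : M ∣ N) : Gamma0 N ≤ Gamma0 M := by
  intro A hA
  rw [Gamma0_mem] at hA ⊢
  rw [ZMod.intCast_zmod_eq_zero_iff_dvd] at hA ⊢
  exact (Int.natCast_dvd_natCast.2 hMN).trans hA

theorem Gamma0_GL_le (hMN : M ∣ N) :
    (Gamma0 N : Subgroup (GL (Fin 2) ℝ)) ≤ (Gamma0 M : Subgroup (GL (Fin 2) ℝ)) :=
  Subgroup.map_mono (Gamma0_le hMN)

/-- a cusp form of level `M` as a cusp form of level `N`, `M ∣ N` -/
def levelIncl (hMN : M ∣ N) :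
    CuspForm (Gamma0 M) 2 →ₗ[ℂ] CuspForm (Gamma0 N) 2 where
  toFun f :=
    { toFun := f
      slash_action_eq' := fun γ hγ => f.slash_action_eq' γ (Gamma0_GL_le hMN hγ)
      holo' := f.holo'
      zero_at_cusps' := fun hc => f.zero_at_cusps' (hc.mono (Gamma0_GL_le hMN)) }
  map_add' _ _ := rfl
  map_smul' _ _ := rfl

@[simp] theorem coe_levelIncl (hMN : M ∣ N) (f : CuspForm (Gamma0 M) 2) :
    ⇑(levelIncl hMN f) = ⇑f := rfl

theorem levelIncl_injective (hMN : M ∣ N) : Function.Injective (levelIncl hMN) := by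
  intro f g h
  apply DFunLike.coe_injective
  have := congrArg (fun x : CuspForm (Gamma0 N) 2 => (⇑x : UpperHalfPlane → ℂ)) h
  simpa using this

theorem levelIncl_heckeTLin (hMN : M ∣ N) {ℓ : ℕ} (hℓ : ℓ.Prime) (hℓN : ¬ ℓ ∣ N)
    (hℓM : ¬ ℓ ∣ M) (f : CuspForm (Gamma0 M) 2) :
    levelIncl hMN (heckeTLin 2 hℓ hℓM f) = heckeTLin 2 hℓ hℓN (levelIncl hMN f) := by
  apply DFunLike.coe_injective
  rfl

end Incl

/-! ### The restriction map `res` -/

section ResMap

variable {N M : ℕ} [NeZero N] [NeZero M] (hMN : M ∣ N) {S : Set ℕ}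
  (hNS : ∀ q : ℕ, q.Prime → q ∣ N → q ∈ S)

include hNS in
/-- every Hecke operator of level `N` restricts to a Hecke operator of level `M` -/
theorem exists_res (t : Module.End ℂ (CuspForm (Gamma0 N) 2)) (ht : t ∈ heckeAlgebra N 2 S) :
    ∃ t' ∈ heckeAlgebra M 2 S, ∀ f : CuspForm (Gamma0 M) 2,
      levelIncl hMN (t' f) = t (levelIncl hMN f) := by
  refine Algebra.adjoin_induction
    (p := fun t _ => ∃ t' ∈ heckeAlgebra M 2 S, ∀ f : CuspForm (Gamma0 M) 2,
      levelIncl hMN (t' f) = t (levelIncl hMN f)) ?_ ?_ ?_ ?_ ht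
  · rintro t (⟨ℓ, hℓ, hℓN, hℓS, rfl⟩ | ⟨q, hqN, hq, hqS, rfl⟩)
    · have hℓM : ¬ ℓ ∣ M := fun h => hℓN (h.trans hMN)
      exact ⟨heckeTLin 2 hℓ hℓM, heckeTLin_mem_heckeAlgebra hℓ hℓM hℓS,
        fun f => levelIncl_heckeTLin hMN hℓ hℓN hℓM f⟩
    · exact absurd (hNS q hq hqN) hqS
  · intro n
    refine ⟨algebraMap ℤ _ n, Subalgebra.algebraMap_mem _ n, fun f => ?_⟩
    simp
  · rintro s t _ _ ⟨s', hs', hs⟩ ⟨t', ht', ht⟩
    refine ⟨s' + t', Subalgebra.add_mem _ hs' ht', fun f => ?_⟩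
    rw [LinearMap.add_apply, LinearMap.add_apply, map_add, hs, ht]
  · rintro s t _ _ ⟨s', hs', hs⟩ ⟨t', ht', ht⟩
    refine ⟨s' * t', Subalgebra.mul_mem _ hs' ht', fun f => ?_⟩
    rw [Module.End.mul_apply, Module.End.mul_apply, hs, ht]

/-- the underlying function of `res` -/
noncomputable def resFun (t : heckeAlgebra N 2 S) : heckeAlgebra M 2 S :=
  ⟨Classical.choose (exists_res hMN hNS t.1 t.2),
    (Classical.choose_spec (exists_res hMN hNS t.1 t.2)).1⟩

theorem resFun_spec (t : heckeAlgebra N 2 S) (f : CuspForm (Gamma0 M) 2) :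
    levelIncl hMN ((resFun hMN hNS t : Module.End ℂ (CuspForm (Gamma0 M) 2)) f) =
      (t : Module.End ℂ (CuspForm (Gamma0 N) 2)) (levelIncl hMN f) :=
  (Classical.choose_spec (exists_res hMN hNS t.1 t.2)).2 f

theorem resFun_unique {t : heckeAlgebra N 2 S} {t' : heckeAlgebra M 2 S}
    (h : ∀ f : CuspForm (Gamma0 M) 2,
      levelIncl hMN ((t' : Module.End ℂ (CuspForm (Gamma0 M) 2)) f) =
        (t : Module.End ℂ (CuspForm (Gamma0 N) 2)) (levelIncl hMN f)) :
    resFun hMN hNS t = t' := by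
  apply Subtype.ext
  ext f : 1
  apply levelIncl_injective hMN
  rw [resFun_spec, h]

/-- **the restriction map** `heckeAlgebra N 2 S → heckeAlgebra M 2 S`, `T_ℓ ↦ T_ℓ` -/
noncomputable def res : heckeAlgebra N 2 S →+* heckeAlgebra M 2 S where
  toFun := resFun hMN hNS
  map_one' := resFun_unique hMN hNS fun f => rfl
  map_mul' s t := resFun_unique hMN hNS fun f => by
    change levelIncl hMN ((resFun hMN hNS s).1 ((resFun hMN hNS t).1 f)) = s.1 (t.1 (levelIncl hMN f))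
    rw [resFun_spec, resFun_spec]
  map_zero' := resFun_unique hMN hNS fun f => by
    change levelIncl hMN ((0 : Module.End ℂ (CuspForm (Gamma0 M) 2)) f) =
      (0 : Module.End ℂ (CuspForm (Gamma0 N) 2)) (levelIncl hMN f)
    simp
  map_add' s t := resFun_unique hMN hNS fun f => by
    change levelIncl hMN ((resFun hMN hNS s).1 f + (resFun hMN hNS t).1 f) =
      s.1 (levelIncl hMN f) + t.1 (levelIncl hMN f)
    rw [map_add, resFun_spec, resFun_spec]

/-- `res` is characterised by compatibility with the inclusion of cusp forms -/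
theorem res_spec (t : heckeAlgebra N 2 S) (f : CuspForm (Gamma0 M) 2) :
    levelIncl hMN ((res hMN hNS t : Module.End ℂ (CuspForm (Gamma0 M) 2)) f) =
      (t : Module.End ℂ (CuspForm (Gamma0 N) 2)) (levelIncl hMN f) :=
  resFun_spec hMN hNS t f

theorem res_unique {t : heckeAlgebra N 2 S} {t' : heckeAlgebra M 2 S}
    (h : ∀ f : CuspForm (Gamma0 M) 2,
      levelIncl hMN ((t' : Module.End ℂ (CuspForm (Gamma0 M) 2)) f) =
        (t : Module.End ℂ (CuspForm (Gamma0 N) 2)) (levelIncl hMN f)) :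
    res hMN hNS t = t' :=
  resFun_unique hMN hNS h

theorem res_T {ℓ : ℕ} (hℓ : ℓ.Prime) (hℓN : ¬ ℓ ∣ N) (hℓS : ℓ ∉ S) :
    res hMN hNS (heckeAlgebra.T hℓ hℓN hℓS) =
      heckeAlgebra.T hℓ (fun h => hℓN (h.trans hMN)) hℓS :=
  res_unique hMN hNS fun f =>
    levelIncl_heckeTLin hMN hℓ hℓN (fun h => hℓN (h.trans hMN)) f

theorem res_surjective : Function.Surjective (res hMN hNS) := by
  rintro ⟨t, ht⟩
  have key : ∀ t (ht : t ∈ heckeAlgebra M 2 S),
      (⟨t, ht⟩ : heckeAlgebra M 2 S) ∈ (res hMN hNS).range := by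
    intro t ht
    refine Algebra.adjoin_induction
      (p := fun t ht => (⟨t, ht⟩ : heckeAlgebra M 2 S) ∈ (res hMN hNS).range) ?_ ?_ ?_ ?_ ht
    · rintro t (⟨ℓ, hℓ, hℓM, hℓS, rfl⟩ | ⟨q, hqM, hq, hqS, rfl⟩)
      · have hℓN : ¬ ℓ ∣ N := fun h => hℓS (hNS ℓ hℓ h)
        exact ⟨heckeAlgebra.T hℓ hℓN hℓS, res_T hMN hNS hℓ hℓN hℓS⟩
      · exact absurd (hNS q hq (hqM.trans hMN)) hqS
    · intro n
      refine ⟨algebraMap ℤ _ n, res_unique hMN hNS fun f => ?_⟩
      change levelIncl hMN ((algebraMap ℤ (Module.End ℂ (CuspForm (Gamma0 M) 2)) n) f) =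
        (algebraMap ℤ (Module.End ℂ (CuspForm (Gamma0 N) 2)) n) (levelIncl hMN f)
      simp
    · rintro s t hs ht ⟨s', hs'⟩ ⟨t', ht'⟩
      exact ⟨s' + t', by rw [map_add, hs', ht']; rfl⟩
    · rintro s t hs ht ⟨s', hs'⟩ ⟨t', ht'⟩
      exact ⟨s' * t', by rw [map_mul, hs', ht']; rfl⟩
  exact key t ht

end ResMap

/-! ### The old ideal `𝔞` and `π′` -/

section Old

variable {N M : ℕ} [NeZero N] [NeZero M] (hMN : M ∣ N) {S : Set ℕ}
  (hNS : ∀ q : ℕ, q.Prime → q ∣ N → q ∈ S)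
  {T : Type*} [CommRing T] (π : heckeAlgebra N 2 S →+* T)

/-- **the old ideal** `𝔞 = π(ker res)·T` -/
noncomputable def oldIdeal : Ideal T := Ideal.map π (RingHom.ker (res hMN hNS))

theorem map_mem_oldIdeal {t : heckeAlgebra N 2 S} (ht : res hMN hNS t = 0) :
    π t ∈ oldIdeal hMN hNS π :=
  Ideal.mem_map_of_mem π ((RingHom.mem_ker).2 ht)

/-- `𝔞` is the smallest ideal containing the `π t`, `t ∈ ker res` -/
theorem oldIdeal_le {I : Ideal T}
    (h : ∀ t : heckeAlgebra N 2 S, res hMN hNS t = 0 → π t ∈ I) : oldIdeal hMN hNS π ≤ I := by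
  unfold oldIdeal
  rw [Ideal.map_le_iff_le_comap]
  intro t ht
  exact h t ((RingHom.mem_ker).1 ht)

/-- an element killed by every `π t`, `t ∈ ker res`, is killed by `𝔞` -/
theorem mul_eq_zero_of_mem_oldIdeal {ω : T}
    (h : ∀ t : heckeAlgebra N 2 S, res hMN hNS t = 0 → π t * ω = 0) {a : T}
    (ha : a ∈ oldIdeal hMN hNS π) : a * ω = 0 := by
  have hle : oldIdeal hMN hNS π ≤ (Ideal.span {ω}).annihilator := by
    refine oldIdeal_le hMN hNS π fun t ht => ?_
    rw [Submodule.mem_annihilator_span_singleton, smul_eq_mul]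
    exact h t ht
  have := hle ha
  rwa [Submodule.mem_annihilator_span_singleton, smul_eq_mul] at this

/-- **`π′`**: the eigen-system of level `M` over `T ⧸ 𝔞` -/
noncomputable def piOld : heckeAlgebra M 2 S →+* T ⧸ oldIdeal hMN hNS π :=
  (res hMN hNS).liftOfSurjective (res_surjective hMN hNS)
    ⟨(Ideal.Quotient.mk (oldIdeal hMN hNS π)).comp π, fun t ht => by
      rw [RingHom.mem_ker, RingHom.comp_apply, Ideal.Quotient.eq_zero_iff_mem]
      exact map_mem_oldIdeal hMN hNS π ((RingHom.mem_ker).1 ht)⟩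

theorem piOld_res (t : heckeAlgebra N 2 S) :
    piOld hMN hNS π (res hMN hNS t) = Ideal.Quotient.mk (oldIdeal hMN hNS π) (π t) :=
  RingHom.liftOfSurjective_comp_apply (res hMN hNS) (res_surjective hMN hNS) _ t

theorem piOld_T {ℓ : ℕ} (hℓ : ℓ.Prime) (hℓN : ¬ ℓ ∣ N) (hℓS : ℓ ∉ S) :
    piOld hMN hNS π (heckeAlgebra.T hℓ (fun h => hℓN (h.trans hMN)) hℓS) =
      Ideal.Quotient.mk (oldIdeal hMN hNS π) (π (heckeAlgebra.T hℓ hℓN hℓS)) := by
  rw [← res_T hMN hNS hℓ hℓN hℓS, piOld_res]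

/-- the same with the hypothesis `ℓ ∤ M` as given (the form of `charpoly_frob` at level `M`) -/
theorem piOld_T' {ℓ : ℕ} (hℓ : ℓ.Prime) (hℓM : ¬ ℓ ∣ M) (hℓS : ℓ ∉ S) :
    piOld hMN hNS π (heckeAlgebra.T hℓ hℓM hℓS) =
      Ideal.Quotient.mk (oldIdeal hMN hNS π)
        (π (heckeAlgebra.T hℓ (fun h => hℓS (hNS ℓ hℓ h)) hℓS)) :=
  piOld_T hMN hNS π hℓ (fun h => hℓS (hNS ℓ hℓ h)) hℓS

end Old

end Fermat.Agent.S33.Top.Res
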